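import Fermat.Agent.Tors.CardTorsion
import Fermat.Prelude.Def_FLTPrelim_GaloisRep

/-!
# P-TORS (T4): the torsion modules `E[n]` of the prelude have `n²` elements

Corollaries of `card_torsion` for `Submodule.torsionBy ℤ E.Point n` and, over `ℚ̄`, for the
`ZMod p`-module `E[p]` of the prelude (`Module.finrank (ZMod p) E[p] = 2`).
-/

set_option autoImplicit false

namespace Fermat.Agent.Tors

open WeierstrassCurve WeierstrassCurve.Affine

section General

variable {K : Type*} [Field K] [IsAlgClosed K] [DecidableEq K] (W : WeierstrassCurve K)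

/-- `Submodule.torsionBy ℤ E.Point n` has exactly `n²` elements. -/
theorem card_torsionBy (hΔ : W.Δ ≠ 0) (n : ℕ) (hn : (n : K) ≠ 0) :
    Nat.card (Submodule.torsionBy ℤ W.toAffine.Point (n : ℤ)) = n ^ 2 := by
  rw [← card_torsion W hΔ n hn]
  refine Nat.card_congr (Equiv.subtypeEquivRight fun P => ?_)
  rw [Submodule.mem_torsionBy_iff, natCast_zsmul]

/-- `Submodule.torsionBy ℤ E.Point n` is finite. -/
theorem finite_torsionBy (hΔ : W.Δ ≠ 0) (n : ℕ) (hn : (n : K) ≠ 0) :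
    Finite (Submodule.torsionBy ℤ W.toAffine.Point (n : ℤ)) := by
  apply Nat.finite_of_card_ne_zero
  rw [card_torsionBy W hΔ n hn]
  apply pow_ne_zero
  rintro rfl
  simp at hn

/-- `Submodule.torsionBy ℤ E.Point n` is nontrivial for `n ≥ 2`. -/
theorem nontrivial_torsionBy (hΔ : W.Δ ≠ 0) (n : ℕ) (hn : (n : K) ≠ 0) (h2 : 2 ≤ n) :
    Nontrivial (Submodule.torsionBy ℤ W.toAffine.Point (n : ℤ)) := by
  have := finite_torsionBy W hΔ n hn
  rw [← Finite.one_lt_card_iff_nontrivial, card_torsionBy W hΔ n hn]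
  nlinarith

end General

section Qbar

variable (W : WeierstrassCurve ℚ)

lemma qbar_Δ_ne_zero (hΔ : W.Δ ≠ 0) : (W⁄(AlgebraicClosure ℚ)).Δ ≠ 0 := by
  have h : (W⁄(AlgebraicClosure ℚ)).Δ = algebraMap ℚ (AlgebraicClosure ℚ) W.Δ :=
    WeierstrassCurve.map_Δ W _
  rw [h]
  exact (_root_.map_ne_zero _).mpr hΔ

/-- **`#E[n](ℚ̄) = n²`** for the prelude's torsion module. -/
theorem card_torsionBy_qbar (hΔ : W.Δ ≠ 0) (n : ℕ) (hn : n ≠ 0) :
    Nat.card (Submodule.torsionBy ℤ (W⁄(AlgebraicClosure ℚ)).Point n) = n ^ 2 :=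
  card_torsionBy (W⁄(AlgebraicClosure ℚ)) (qbar_Δ_ne_zero W hΔ) n (by exact_mod_cast hn)

theorem finite_torsionBy_qbar (hΔ : W.Δ ≠ 0) (n : ℕ) (hn : n ≠ 0) :
    Finite (Submodule.torsionBy ℤ (W⁄(AlgebraicClosure ℚ)).Point n) :=
  finite_torsionBy (W⁄(AlgebraicClosure ℚ)) (qbar_Δ_ne_zero W hΔ) n (by exact_mod_cast hn)

theorem nontrivial_torsionBy_qbar (hΔ : W.Δ ≠ 0) (n : ℕ) (hn : 2 ≤ n) :
    Nontrivial (Submodule.torsionBy ℤ (W⁄(AlgebraicClosure ℚ)).Point n) :=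
  nontrivial_torsionBy (W⁄(AlgebraicClosure ℚ)) (qbar_Δ_ne_zero W hΔ) n
    (by exact_mod_cast (by omega : n ≠ 0)) hn

/-- **`E[p](ℚ̄)` is a `2`-dimensional `𝔽_p`-vector space.** -/
theorem finrank_torsionBy_qbar (hΔ : W.Δ ≠ 0) (p : ℕ) [Fact p.Prime] :
    Module.finrank (ZMod p) (Submodule.torsionBy ℤ (W⁄(AlgebraicClosure ℚ)).Point p) = 2 := by
  have hp : p.Prime := Fact.out
  have := finite_torsionBy_qbar W hΔ p hp.ne_zero
  have h := Module.natCard_eq_pow_finrank (K := ZMod p)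
    (V := Submodule.torsionBy ℤ (W⁄(AlgebraicClosure ℚ)).Point p)
  rw [card_torsionBy_qbar W hΔ p hp.ne_zero, Nat.card_zmod] at h
  exact (Nat.pow_right_injective hp.two_le h).symm

end Qbar

end Fermat.Agent.Tors
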