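import Mathlib.AlgebraicGeometry.EllipticCurve.Affine.Point
import Mathlib.FieldTheory.IsAlgClosed.Basic
import Mathlib.FieldTheory.Separable
import Mathlib.SetTheory.Cardinal.Finite
import Mathlib.Data.Set.Card

/-!
# P-TORS (T3): the exact count `#E[n] = n²` from an abstract `x`-only multiplication formula

Let `W` be a Weierstrass curve with `Δ ≠ 0` over an algebraically closed field `K`, and let
`n` be invertible in `K`.  Suppose `X, Z : K[X]` satisfy

* `X` has degree at most `n²` with coefficient `1` in degree `n²`,
* `Z` has degree at most `n² - 1` with coefficient `n²` in degree `n² - 1`,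
* `X` and `Z` have no common root,
* for every affine point `P = (x, y)`: `n • P = 0 ↔ Z(x) = 0`, and if `n • P = (x', y')` then
  `x' * Z(x) = X(x)`.

Then `E[n]` has exactly `n²` elements (`card_torsion_of_ladder`).

The proof is the fibre argument: the Wronskian `X' Z - X Z'` has coefficient `n² ≠ 0` in degree
`2 n² - 2`, so for all but finitely many `c` the polynomial `X - c Z` is separable, with exactly
`n²` roots.  Pick such a `c` which is moreover not the `x`-coordinate of a `2`-torsion point and
a point `Q` with `x(Q) = c`.  Then `P ↦ x(P)` is a bijection from `[n]⁻¹(Q)` onto the roots of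
`X - c Z`, and `[n]⁻¹(Q)` is a coset of `E[n]`.
-/

set_option autoImplicit false

namespace Fermat.Agent.Tors

open Polynomial

section Poly

variable {K : Type*} [Field K]

/-- The top coefficient of the Wronskian `X' Z - X Z'`. -/
lemma count_wronskian_coeff {X Z : K[X]} {d : ℕ} {ℓ : K} (hd : 2 ≤ d)
    (hX : X.natDegree ≤ d) (hXc : X.coeff d = 1)
    (hZ : Z.natDegree ≤ d - 1) (hZc : Z.coeff (d - 1) = ℓ) :
    (derivative X * Z - X * derivative Z).coeff (2 * d - 2) = ℓ := by
  obtain ⟨e, rfl⟩ : ∃ e, d = e + 2 := ⟨d - 2, by omega⟩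
  have h1 : e + 2 - 1 = e + 1 := by omega
  rw [h1] at hZ hZc
  have hX' : (derivative X).natDegree ≤ e + 1 := (natDegree_derivative_le X).trans (by omega)
  have hZ' : (derivative Z).natDegree ≤ e := (natDegree_derivative_le Z).trans (by omega)
  have e1 : 2 * (e + 2) - 2 = (e + 1) + (e + 1) := by omega
  have e2 : 2 * (e + 2) - 2 = (e + 2) + e := by omega
  have c1 : (derivative X * Z).coeff (2 * (e + 2) - 2) =
      (derivative X).coeff (e + 1) * Z.coeff (e + 1) := by
    rw [e1]
    exact coeff_mul_add_eq_of_natDegree_le hX' hZ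
  have c2 : (X * derivative Z).coeff (2 * (e + 2) - 2) =
      X.coeff (e + 2) * (derivative Z).coeff e := by
    rw [e2]
    exact coeff_mul_add_eq_of_natDegree_le hX hZ'
  rw [coeff_sub, c1, c2, coeff_derivative, coeff_derivative, hXc, hZc]
  push_cast
  ring

/-- If `c` is not of the form `X(r) / Z(r)` for a root `r` of the Wronskian, then `X - c Z` is
separable. -/
lemma count_separable_of_wronskian [IsAlgClosed K] {X Z : K[X]}
    (hcop : ∀ r : K, X.eval r = 0 → Z.eval r = 0 → False) (c : K)
    (hc : ∀ r : K, (derivative X * Z - X * derivative Z).eval r = 0 → Z.eval r ≠ 0 →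
      c * Z.eval r ≠ X.eval r) :
    (X - C c * Z).Separable := by
  rw [separable_def, isCoprime_iff_aeval_ne_zero_of_isAlgClosed (k := K) K]
  intro a
  by_contra hcon
  simp only [not_or, not_not] at hcon
  obtain ⟨h1, h2⟩ := hcon
  simp only [coe_aeval_eq_eval, derivative_sub, derivative_mul, derivative_C, zero_mul, zero_add,
    eval_sub, eval_mul, eval_C] at h1 h2
  have hX : X.eval a = c * Z.eval a := sub_eq_zero.mp h1
  have hX' : (derivative X).eval a = c * (derivative Z).eval a := sub_eq_zero.mp h2
  have hZ : Z.eval a ≠ 0 := by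
    intro hZ
    apply hcop a _ hZ
    rw [hX, hZ, mul_zero]
  refine hc a ?_ hZ hX.symm
  simp only [eval_sub, eval_mul]
  rw [hX, hX']
  ring

/-- Generic separability: outside a finite set, `X - c Z` is separable. -/
lemma count_exists_good [IsAlgClosed K] [DecidableEq K] {X Z : K[X]}
    (hW : derivative X * Z - X * derivative Z ≠ 0)
    (hcop : ∀ r : K, X.eval r = 0 → Z.eval r = 0 → False) (B : Finset K) :
    ∃ c : K, c ∉ B ∧ (X - C c * Z).Separable := by
  obtain ⟨c, hc⟩ := Infinite.exists_notMem_finset
    (((derivative X * Z - X * derivative Z).roots.toFinset.image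
      (fun r => X.eval r / Z.eval r)) ∪ B)
  rw [Finset.mem_union, not_or] at hc
  refine ⟨c, hc.2, count_separable_of_wronskian hcop c ?_⟩
  intro r hr hZ hcr
  apply hc.1
  rw [Finset.mem_image]
  refine ⟨r, ?_, ?_⟩
  · rw [Multiset.mem_toFinset, mem_roots hW]
    exact hr
  · rw [← hcr, mul_div_assoc, div_self hZ, mul_one]

/-- A separable polynomial `X - c Z` of degree `d` has exactly `d` roots. -/
lemma count_ncard_rootSet [IsAlgClosed K] {X Z : K[X]} {d : ℕ} (hX : X.natDegree ≤ d)
    (hXc : X.coeff d = 1) (hZ : Z.natDegree < d) (c : K) (hsep : (X - C c * Z).Separable) :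
    {r : K | (X - C c * Z).eval r = 0}.ncard = d := by
  have hcoeff : (X - C c * Z).coeff d = 1 := by
    rw [coeff_sub, coeff_C_mul, coeff_eq_zero_of_natDegree_lt hZ, hXc, mul_zero, sub_zero]
  have hle : (X - C c * Z).natDegree ≤ d := by
    refine (natDegree_sub_le _ _).trans (max_le hX ?_)
    exact (natDegree_C_mul_le _ _).trans hZ.le
  have hdeg : (X - C c * Z).natDegree = d := by
    refine le_antisymm hle (le_natDegree_of_ne_zero ?_)
    rw [hcoeff]
    exact one_ne_zero
  have hne : X - C c * Z ≠ 0 := by
    intro h0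
    rw [h0, coeff_zero] at hcoeff
    exact zero_ne_one hcoeff
  have hcard := card_rootSet_eq_natDegree (K := K) hsep (IsAlgClosed.splits _)
  have hset : {r : K | (X - C c * Z).eval r = 0} = (X - C c * Z).rootSet K := by
    ext r
    rw [Set.mem_ofPred_eq, mem_rootSet, coe_aeval_eq_eval]
    exact ⟨fun h => ⟨hne, h⟩, fun h => h.2⟩
  rw [hset, ← Nat.card_coe_set_eq, Nat.card_eq_fintype_card, hcard, hdeg]

end Poly

section Curve

open WeierstrassCurve WeierstrassCurve.Affine

variable {K : Type*} [Field K] [DecidableEq K] (W : WeierstrassCurve K)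

/-- The `x`-coordinate of a point (junk value `0` at the origin). -/
def count_x : W.toAffine.Point → K
  | .zero => 0
  | .some x _ _ => x

omit [DecidableEq K] in
@[simp] lemma count_x_some (x y : K) (h : W.toAffine.Nonsingular x y) :
    count_x W (Point.some x y h) = x := rfl

omit [DecidableEq K] in
lemma count_x_neg (P : W.toAffine.Point) : count_x W (-P) = count_x W P := by
  cases P with
  | zero => rfl
  | some x y h => rw [Point.neg_some, count_x_some, count_x_some]

omit [DecidableEq K] in
/-- Two nonzero points with the same `x`-coordinate are equal or opposite. -/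
lemma count_eq_or_eq_neg {P P' : W.toAffine.Point} (hP : P ≠ 0) (hP' : P' ≠ 0)
    (hx : count_x W P = count_x W P') : P = P' ∨ P = -P' := by
  cases P with
  | zero => exact absurd rfl hP
  | some x y h =>
    cases P' with
    | zero => exact absurd rfl hP'
    | some x' y' h' =>
      simp only [count_x_some] at hx
      subst hx
      rcases Y_eq_of_X_eq h.1 h'.1 rfl with hy | hy
      · left
        subst hy
        rfl
      · right
        subst hy
        rw [Point.neg_some]

omit [DecidableEq K] in
/-- Over an algebraically closed field every `x` is the `x`-coordinate of a point. -/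
lemma count_exists_point [IsAlgClosed K] (hΔ : W.Δ ≠ 0) (x : K) :
    ∃ y : K, W.toAffine.Nonsingular x y := by
  have hdeg : (C (1 : K) * Polynomial.X ^ 2 + C (W.a₁ * x + W.a₃) * Polynomial.X
      + C (-(x ^ 3 + W.a₂ * x ^ 2 + W.a₄ * x + W.a₆))).degree ≠ 0 := by
    rw [degree_quadratic one_ne_zero]
    norm_num
  obtain ⟨y, hy⟩ := IsAlgClosed.exists_root _ hdeg
  refine ⟨y, (W.toAffine.equation_iff_nonsingular_of_Δ_ne_zero hΔ).mp ?_⟩
  rw [Affine.equation_iff]
  simp only [IsRoot.def, eval_add, eval_mul, eval_C, eval_pow, eval_X] at hy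
  linear_combination hy

/-- The `2`-division polynomial `4 x³ + b₂ x² + 2 b₄ x + b₆`. -/
noncomputable def count_m1 : K[X] :=
  C 4 * Polynomial.X ^ 3 + C W.b₂ * Polynomial.X ^ 2 + C (2 * W.b₄) * Polynomial.X + C W.b₆

omit [DecidableEq K] in
lemma count_m1_ne_zero (hΔ : W.Δ ≠ 0) : count_m1 W ≠ 0 := by
  intro h0
  have h2 : (count_m1 W).coeff 2 = 0 := by rw [h0, coeff_zero]
  have h1 : (count_m1 W).coeff 1 = 0 := by rw [h0, coeff_zero]
  have h00 : (count_m1 W).coeff 0 = 0 := by rw [h0, coeff_zero]
  simp only [count_m1, coeff_add, coeff_C_mul, coeff_X_pow, coeff_X, coeff_C] at h2 h1 h00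
  norm_num at h2 h1 h00
  apply hΔ
  rw [WeierstrassCurve.Δ]
  rcases h1 with h1 | h1
  · linear_combination (-(W.b₂ * W.b₈) + 9 * W.b₄ * W.b₆) * h2 - 4 * W.b₄ ^ 3 * h1
      - 27 * W.b₆ * h00
  · linear_combination (-(W.b₂ * W.b₈) + 9 * W.b₄ * W.b₆) * h2 - 8 * W.b₄ ^ 2 * h1
      - 27 * W.b₆ * h00

omit [DecidableEq K] in
lemma count_eval_m1 {x y : K} (h : W.toAffine.Equation x y) :
    (count_m1 W).eval x = (2 * y + W.a₁ * x + W.a₃) ^ 2 := by
  rw [Affine.equation_iff] at h
  simp only [count_m1, eval_add, eval_mul, eval_C, eval_pow, eval_X, WeierstrassCurve.b₂,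
    WeierstrassCurve.b₄, WeierstrassCurve.b₆]
  linear_combination (-4 : K) * h

omit [DecidableEq K] in
/-- A point whose `x`-coordinate is not a root of the `2`-division polynomial is not
`2`-torsion. -/
lemma count_ne_neg {x y : K} (h : W.toAffine.Nonsingular x y)
    (hm : (count_m1 W).eval x ≠ 0) :
    (Point.some x y h : W.toAffine.Point) ≠ -(Point.some x y h) := by
  intro heq
  rw [Point.neg_some] at heq
  have hy : y = W.toAffine.negY x y := by
    injection heq
  apply hm
  rw [count_eval_m1 W h.1]
  rw [Affine.negY] at hy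
  have : 2 * y + W.a₁ * x + W.a₃ = 0 := by linear_combination hy
  rw [this]
  ring

/-- **The exact count of `n`-torsion points** from an abstract `x`-only multiplication
formula `x(n • P) = X(x(P)) / Z(x(P))`. -/
theorem card_torsion_of_ladder [IsAlgClosed K] (hΔ : W.Δ ≠ 0) (n : ℕ) (hn : (n : K) ≠ 0)
    (X Z : K[X]) (hXd : X.natDegree ≤ n ^ 2) (hXc : X.coeff (n ^ 2) = 1)
    (hZd : Z.natDegree ≤ n ^ 2 - 1) (hZc : Z.coeff (n ^ 2 - 1) = (n : K) ^ 2)
    (hcop : ∀ r : K, X.eval r = 0 → Z.eval r = 0 → False)
    (hzero : ∀ (x y : K) (h : W.toAffine.Nonsingular x y),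
      n • (Point.some x y h : W.toAffine.Point) = 0 ↔ Z.eval x = 0)
    (hmul : ∀ (x y : K) (h : W.toAffine.Nonsingular x y) (x' y' : K)
      (h' : W.toAffine.Nonsingular x' y'),
      n • (Point.some x y h : W.toAffine.Point) = Point.some x' y' h' →
        x' * Z.eval x = X.eval x) :
    Nat.card {P : W.toAffine.Point // n • P = 0} = n ^ 2 := by
  have hn1 : 1 ≤ n := by
    rcases Nat.eq_zero_or_pos n with rfl | h
    · simp at hn
    · exact h
  rcases eq_or_lt_of_le hn1 with h1 | hn2
  · -- `n = 1`
    subst h1
    have : Unique {P : W.toAffine.Point // 1 • P = 0} :=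
      { default := ⟨0, one_nsmul 0⟩
        uniq := fun P => Subtype.ext (by
          have := P.2
          rwa [one_nsmul] at this) }
    rw [Nat.card_unique]
    norm_num
  · -- `n ≥ 2`
    have hd : 2 ≤ n ^ 2 := by nlinarith
    have hW : derivative X * Z - X * derivative Z ≠ 0 := by
      intro h0
      have := count_wronskian_coeff hd hXd hXc hZd hZc
      rw [h0, coeff_zero] at this
      exact pow_ne_zero 2 hn this.symm
    obtain ⟨c, hcB, hsep⟩ := count_exists_good hW hcop (count_m1 W).roots.toFinset
    have hm1 : (count_m1 W).eval c ≠ 0 := by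
      intro h0
      apply hcB
      rw [Multiset.mem_toFinset, mem_roots (count_m1_ne_zero W hΔ)]
      exact h0
    have hroots := count_ncard_rootSet hXd hXc (by omega) c hsep
    obtain ⟨yQ, hQ⟩ := count_exists_point W hΔ c
    have hQneg := count_ne_neg W hQ hm1
    have hQ0 : (Point.some c yQ hQ : W.toAffine.Point) ≠ 0 := Point.some_ne_zero _
    -- `x` maps the fibre `[n]⁻¹(Q)` into the roots
    have hmaps : ∀ P : W.toAffine.Point, n • P = Point.some c yQ hQ →
        (X - C c * Z).eval (count_x W P) = 0 := by
      intro P hP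
      cases P with
      | zero =>
        exfalso
        apply hQ0
        rw [← hP]
        exact smul_zero n
      | some x y h =>
        have := hmul x y h c yQ hQ hP
        simp only [count_x_some, eval_sub, eval_mul, eval_C]
        rw [this, sub_self]
    have hne0 : ∀ P : W.toAffine.Point, n • P = Point.some c yQ hQ → P ≠ 0 := by
      rintro P hP rfl
      apply hQ0
      rw [← hP]
      exact smul_zero n
    have hinj : Set.InjOn (count_x W) {P : W.toAffine.Point | n • P = Point.some c yQ hQ} := by
      intro P hP P' hP' hx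
      rw [Set.mem_ofPred_eq] at hP hP'
      rcases count_eq_or_eq_neg W (hne0 P hP) (hne0 P' hP') hx with h | h
      · exact h
      · exfalso
        apply hQneg
        rw [h, smul_neg, hP'] at hP
        exact hP.symm
    have hsurj : ∀ r : K, (X - C c * Z).eval r = 0 →
        ∃ P : W.toAffine.Point, n • P = Point.some c yQ hQ ∧ count_x W P = r := by
      intro r hr
      simp only [eval_sub, eval_mul, eval_C] at hr
      have hXr : X.eval r = c * Z.eval r := sub_eq_zero.mp hr
      have hZr : Z.eval r ≠ 0 := by
        intro hZ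
        apply hcop r _ hZ
        rw [hXr, hZ, mul_zero]
      obtain ⟨y, h⟩ := count_exists_point W hΔ r
      have hnP : n • (Point.some r y h : W.toAffine.Point) ≠ 0 := fun h0 =>
        hZr ((hzero r y h).mp h0)
      have hx : count_x W (n • (Point.some r y h : W.toAffine.Point)) = c := by
        generalize hR : n • (Point.some r y h : W.toAffine.Point) = R at hnP
        cases R with
        | zero => exact absurd rfl hnP
        | some x' y' h' =>
          have := hmul r y h x' y' h' hR
          rw [hXr] at this
          exact mul_right_cancel₀ hZr this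
      rcases count_eq_or_eq_neg W hnP hQ0 hx with h' | h'
      · exact ⟨Point.some r y h, h', rfl⟩
      · refine ⟨-(Point.some r y h), ?_, ?_⟩
        · rw [smul_neg, h', neg_neg]
        · rw [count_x_neg, count_x_some]
    have himage : count_x W '' {P : W.toAffine.Point | n • P = Point.some c yQ hQ} =
        {r : K | (X - C c * Z).eval r = 0} := by
      ext r
      constructor
      · rintro ⟨P, hP, rfl⟩
        exact hmaps P hP
      · intro hr
        obtain ⟨P, hP, hx⟩ := hsurj r hr
        exact ⟨P, hP, hx⟩
    have hS : {P : W.toAffine.Point | n • P = Point.some c yQ hQ}.ncard = n ^ 2 := by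
      rw [← hroots, ← himage, hinj.ncard_image]
    obtain ⟨P₁, hP₁⟩ : {P : W.toAffine.Point | n • P = Point.some c yQ hQ}.Nonempty := by
      apply Set.nonempty_of_ncard_ne_zero
      rw [hS]
      exact pow_ne_zero 2 (by omega)
    rw [Set.mem_ofPred_eq] at hP₁
    have hST : {P : W.toAffine.Point | n • P = Point.some c yQ hQ} =
        (fun t => P₁ + t) '' {P : W.toAffine.Point | n • P = 0} := by
      ext P
      constructor
      · intro hP
        rw [Set.mem_ofPred_eq] at hP
        refine ⟨P - P₁, ?_, ?_⟩
        · rw [Set.mem_ofPred_eq, smul_sub, hP, hP₁, sub_self]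
        · simp
      · rintro ⟨t, ht, rfl⟩
        rw [Set.mem_ofPred_eq] at ht
        rw [Set.mem_ofPred_eq, smul_add, ht, hP₁, add_zero]
    have hT : {P : W.toAffine.Point | n • P = 0}.ncard = n ^ 2 := by
      rw [← hS, hST, Set.ncard_image_of_injective _ (add_right_injective P₁)]
    rw [← hT, ← Nat.card_coe_set_eq]
    rfl

end Curve

end Fermat.Agent.Tors
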