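import Fermat.Agent.Tors.Defs

/-!
# P-TORS: the ladder polynomials of a Weierstrass curve and the frozen interfaces

`pX W n, pZ W n : R[X]` are the ladder polynomials; `pX W n / pZ W n` is the `x`-coordinate of
`n • P` as a rational function of `x = x(P)`.
-/

set_option autoImplicit false

namespace Fermat.Agent.Tors

open Polynomial

section poly

variable {R : Type*} [CommRing R] (W : WeierstrassCurve R)

/-- The ladder numerator polynomial `X_n ∈ R[X]`. -/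
noncomputable def pX (n : ℕ) : R[X] :=
  lX (C W.b₂) (C W.b₄) (C W.b₆) (C W.b₈) (X : R[X]) n

/-- The ladder denominator polynomial `Z_n ∈ R[X]`. -/
noncomputable def pZ (n : ℕ) : R[X] :=
  lZ (C W.b₂) (C W.b₄) (C W.b₆) (C W.b₈) (X : R[X]) n

/-- The value of the ladder numerator at `r`. -/
def vX (r : R) (n : ℕ) : R := lX W.b₂ W.b₄ W.b₆ W.b₈ r n

/-- The value of the ladder denominator at `r`. -/
def vZ (r : R) (n : ℕ) : R := lZ W.b₂ W.b₄ W.b₆ W.b₈ r n

lemma eval_pX (r : R) (n : ℕ) : (pX W n).eval r = vX W r n := by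
  have := map_lX (evalRingHom r) (C W.b₂) (C W.b₄) (C W.b₆) (C W.b₈) (X : R[X]) n
  simpa [pX, vX] using this

lemma eval_pZ (r : R) (n : ℕ) : (pZ W n).eval r = vZ W r n := by
  have := map_lZ (evalRingHom r) (C W.b₂) (C W.b₄) (C W.b₆) (C W.b₈) (X : R[X]) n
  simpa [pZ, vZ] using this

@[simp] lemma pX_zero : pX W 0 = 1 := by simp [pX]
@[simp] lemma pZ_zero : pZ W 0 = 0 := by simp [pZ]
@[simp] lemma pX_one : pX W 1 = X := by simp [pX]
@[simp] lemma pZ_one : pZ W 1 = 1 := by simp [pZ]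
@[simp] lemma vX_zero (r : R) : vX W r 0 = 1 := by simp [vX]
@[simp] lemma vZ_zero (r : R) : vZ W r 0 = 0 := by simp [vZ]
@[simp] lemma vX_one (r : R) : vX W r 1 = r := by simp [vX]
@[simp] lemma vZ_one (r : R) : vZ W r 1 = 1 := by simp [vZ]

lemma pX_two_mul (n : ℕ) :
    pX W (2 * n) = dblX (C W.b₄) (C W.b₆) (C W.b₈) (pX W n) (pZ W n) := lX_two_mul ..

lemma pZ_two_mul (n : ℕ) :
    pZ W (2 * n) = dblZ (C W.b₂) (C W.b₄) (C W.b₆) (pX W n) (pZ W n) := lZ_two_mul ..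

lemma pX_two_mul_add_one (n : ℕ) :
    pX W (2 * n + 1) = dadX (C W.b₂) (C W.b₄) (C W.b₆) X (pX W n) (pZ W n)
      (pX W (n + 1)) (pZ W (n + 1)) := lX_two_mul_add_one ..

lemma pZ_two_mul_add_one (n : ℕ) :
    pZ W (2 * n + 1) = dadZ (pX W n) (pZ W n) (pX W (n + 1)) (pZ W (n + 1)) :=
  lZ_two_mul_add_one ..

lemma vX_two_mul (r : R) (n : ℕ) :
    vX W r (2 * n) = dblX W.b₄ W.b₆ W.b₈ (vX W r n) (vZ W r n) := lX_two_mul ..

lemma vZ_two_mul (r : R) (n : ℕ) :
    vZ W r (2 * n) = dblZ W.b₂ W.b₄ W.b₆ (vX W r n) (vZ W r n) := lZ_two_mul ..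

lemma vX_two_mul_add_one (r : R) (n : ℕ) :
    vX W r (2 * n + 1) = dadX W.b₂ W.b₄ W.b₆ r (vX W r n) (vZ W r n)
      (vX W r (n + 1)) (vZ W r (n + 1)) := lX_two_mul_add_one ..

lemma vZ_two_mul_add_one (r : R) (n : ℕ) :
    vZ W r (2 * n + 1) = dadZ (vX W r n) (vZ W r n) (vX W r (n + 1)) (vZ W r (n + 1)) :=
  lZ_two_mul_add_one ..

end poly

/-! ## Frozen interfaces of the project (statements only) -/

/-- (T1) exact degrees and leading coefficients of the ladder polynomials. -/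
def IfaceDegree : Prop :=
  ∀ (R : Type) [CommRing R] (W : WeierstrassCurve R) (n : ℕ),
    (pX W n).natDegree ≤ n ^ 2 ∧ (pX W n).coeff (n ^ 2) = 1 ∧
    (pZ W n).natDegree ≤ n ^ 2 - 1 ∧ (pZ W n).coeff (n ^ 2 - 1) = (n : R) ^ 2

/-- (T2) pointwise correctness: `(vX : vZ)` represents `x(n • P)` in `ℙ¹`. -/
def IfacePointwise : Prop :=
  ∀ (K : Type) [Field K] [DecidableEq K] (W : WeierstrassCurve K) (x y : K)
    (h : W.toAffine.Nonsingular x y) (n : ℕ),
    (vX W x n ≠ 0 ∨ vZ W x n ≠ 0) ∧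
    (n • (WeierstrassCurve.Affine.Point.some x y h) = 0 ↔ vZ W x n = 0) ∧
    (∀ (x' y' : K) (h' : W.toAffine.Nonsingular x' y'),
      n • (WeierstrassCurve.Affine.Point.some x y h) = WeierstrassCurve.Affine.Point.some x' y' h' →
        vX W x n = x' * vZ W x n)

/-- (T3) the count. -/
def IfaceCount : Prop :=
  ∀ (K : Type) [Field K] [IsAlgClosed K] [DecidableEq K] (W : WeierstrassCurve K),
    W.Δ ≠ 0 → ∀ n : ℕ, (n : K) ≠ 0 →
      Nat.card {P : W.toAffine.Point // n • P = 0} = n ^ 2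

end Fermat.Agent.Tors
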