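import Fermat.Agent.S13.LadderValid
import Fermat.Agent.Tors.Count
import Fermat.Agent.Tors.Poly

/-!
# P-TORS: `#E[n] = n²` over an algebraically closed field in which `n` is invertible

Instantiation of the abstract count `card_torsion_of_ladder` with the `x`-only ladder
`Fermat.Agent.S13.T_ladder` (degrees: `T_ladder_top`, validity: `T_ladder_rep`).
-/

set_option autoImplicit false

namespace Fermat.Agent.Tors

open WeierstrassCurve WeierstrassCurve.Affine Polynomial
open Fermat.Agent.S13 Fermat.Agent.S51

/-- **Exact count of torsion**: an elliptic curve over an algebraically closed field `K` has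
exactly `n²` points of `n`-torsion, for every `n` invertible in `K`. -/
theorem card_torsion {K : Type*} [Field K] [IsAlgClosed K] [DecidableEq K]
    (W : WeierstrassCurve K) (hΔ : W.Δ ≠ 0) (n : ℕ) (hn : (n : K) ≠ 0) :
    Nat.card {P : W.toAffine.Point // n • P = 0} = n ^ 2 := by
  have hn1 : 1 ≤ n := by
    rcases Nat.eq_zero_or_pos n with rfl | h
    · simp at hn
    · exact h
  obtain ⟨d, hd, hF, hG⟩ := T_ladder_top W.toAffine n hn1
  have hd' : n ^ 2 - 1 = d := by omega
  have hrep : ∀ (x y : K) (h : W.toAffine.Nonsingular x y),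
      T_rep (n • (Point.some x y h : W.toAffine.Point)) ((T_ladder W.toAffine n).1.eval x)
        ((T_ladder W.toAffine n).2.eval x) := fun x y h =>
    T_ladder_rep W.toAffine hΔ (P := Point.some x y h) (Point.some_ne_zero _) n
  refine card_torsion_of_ladder W hΔ n hn (T_ladder W.toAffine n).1 (T_ladder W.toAffine n).2
    ?_ ?_ ?_ ?_ ?_ ?_ ?_
  · rw [← hd]
    exact hF.1
  · rw [← hd]
    exact hF.2
  · rw [hd']
    exact hG.1
  · rw [hd']
    exact hG.2
  · intro r hX hZ
    obtain ⟨y, h⟩ := count_exists_point W hΔ r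
    rcases hrep r y h with ⟨-, -, hf⟩ | ⟨-, hg, -⟩
    · exact hf hX
    · exact hg hZ
  · intro x y h
    rcases hrep x y h with ⟨h0, hg, -⟩ | ⟨h0, hg, -⟩
    · exact ⟨fun _ => hg, fun _ => h0⟩
    · exact ⟨fun h' => absurd h' h0, fun h' => absurd h' hg⟩
  · intro x y h x' y' h' hP
    rcases hrep x y h with ⟨h0, -, -⟩ | ⟨-, -, hf⟩
    · rw [hP] at h0
      exact absurd h0 (Point.some_ne_zero _)
    · rw [hf, hP, A_x_some]

/-- The frozen interface `IfaceCount` of the P-TORS project holds. -/
theorem ifaceCount : IfaceCount := fun _ _ _ _ W hΔ n hn => card_torsion W hΔ n hn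

end Fermat.Agent.Tors
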