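import Fermat.Agent.Tors.Degree
import Fermat.Agent.S13.Torsion

/-!
# P-TORS: bridge between the ring-generic ladder polynomials `pX, pZ` and helper6's
field-level ladder `Fermat.Agent.S13.T_ladder` (whose validity is proved in
`Fermat/Agent/S13/LadderValid.lean`).
-/

set_option autoImplicit false

namespace Fermat.Agent.Tors

open Polynomial WeierstrassCurve WeierstrassCurve.Affine
open Fermat.Agent.S13 Fermat.Agent.S51

section

variable {F : Type*} [Field F] (E : Affine F)

lemma T_dbl_eq (p : F[X] × F[X]) :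
    T_dbl E p =
      (dblX (C E.b₄) (C E.b₆) (C E.b₈) p.1 p.2, dblZ (C E.b₂) (C E.b₄) (C E.b₆) p.1 p.2) := by
  simp only [T_dbl, dblX, dblZ]
  refine Prod.ext ?_ ?_
  · simp only [map_mul, map_ofNat]; ring
  · simp only [map_mul, map_ofNat]; ring

lemma T_dadd_eq (p q : F[X] × F[X]) :
    T_dadd E p q =
      (dadX (C E.b₂) (C E.b₄) (C E.b₆) X p.1 p.2 q.1 q.2, dadZ p.1 p.2 q.1 q.2) := by
  simp only [T_dadd, dadX, dadZ]
  refine Prod.ext ?_ ?_
  · simp only [map_ofNat]; ring
  · ring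

/-- helper6's ladder polynomials are the ring-generic ladder polynomials. -/
theorem T_ladder_eq (n : ℕ) : T_ladder E n = (pX E n, pZ E n) := by
  induction n using Nat.strong_induction_on with
  | _ n ih =>
    rcases Nat.even_or_odd' n with ⟨m, rfl | rfl⟩
    · rcases Nat.eq_zero_or_pos m with rfl | hm
      · rw [show 2 * 0 = 0 from rfl, T_ladder_zero]; simp
      · rw [T_ladder_even E m hm, ih m (by omega), T_dbl_eq, pX_two_mul, pZ_two_mul]
    · rcases Nat.eq_zero_or_pos m with rfl | hm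
      · rw [show 2 * 0 + 1 = 1 from rfl, T_ladder_one]; simp
      · rw [T_ladder_odd E m hm, ih m (by omega), ih (m + 1) (by omega), T_dadd_eq,
          pX_two_mul_add_one, pZ_two_mul_add_one]

end

section valid

variable {F : Type*} [Field F] [DecidableEq F] (E : Affine F)

/-- Validity of the ladder for `pX, pZ` (from helper6's `T_ladder_rep`): projective form. -/
theorem pXZ_rep (hΔ : E.Δ ≠ 0) {P : E.Point} (hP : P ≠ 0) (n : ℕ) :
    T_rep (n • P) ((pX E n).eval (A_x P)) ((pZ E n).eval (A_x P)) := by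
  have := T_ladder_rep E hΔ hP n
  rwa [T_ladder_eq] at this

/-- `n • P = 0 ↔ Z_n(x(P)) = 0` for a nonzero point `P`. -/
theorem nsmul_eq_zero_iff_pZ (hΔ : E.Δ ≠ 0) {x y : F} (h : E.Nonsingular x y) (n : ℕ) :
    n • (Point.some x y h) = 0 ↔ (pZ E n).eval x = 0 := by
  have := T_nsmul_eq_zero_iff E hΔ (P := Point.some x y h) (by simp [Point.zero_def]) n
  rwa [T_ladder_eq] at this

/-- `X_n(x(P))` and `Z_n(x(P))` never vanish simultaneously. -/
theorem pX_pZ_not_both_zero (hΔ : E.Δ ≠ 0) {x y : F} (h : E.Nonsingular x y) (n : ℕ) :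
    ¬ ((pX E n).eval x = 0 ∧ (pZ E n).eval x = 0) := by
  have := pXZ_rep E hΔ (P := Point.some x y h) (by simp [Point.zero_def]) n
  simp only [A_x_some] at this
  rintro ⟨h1, h2⟩
  rcases this with ⟨-, -, h3⟩ | ⟨-, h3, -⟩
  · exact h3 h1
  · exact h3 h2

/-- If `n • P = (x', y')` is affine then `X_n(x) = x' * Z_n(x)` and `Z_n(x) ≠ 0`. -/
theorem pX_eq_mul_pZ (hΔ : E.Δ ≠ 0) {x y : F} (h : E.Nonsingular x y) (n : ℕ)
    {x' y' : F} (h' : E.Nonsingular x' y')
    (hn : n • (Point.some x y h) = Point.some x' y' h') :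
    (pX E n).eval x = x' * (pZ E n).eval x ∧ (pZ E n).eval x ≠ 0 := by
  have := pXZ_rep E hΔ (P := Point.some x y h) (by simp [Point.zero_def]) n
  simp only [A_x_some] at this
  rcases this with ⟨h0, -, -⟩ | ⟨-, h3, h4⟩
  · rw [hn] at h0
    exact absurd h0 (by simp [Point.zero_def])
  · rw [hn, A_x_some] at h4
    exact ⟨h4, h3⟩

/-- (T2) in the frozen interface shape, for elliptic curves. -/
theorem pointwise_of_Δ_ne_zero (hΔ : E.Δ ≠ 0) (x y : F) (h : E.Nonsingular x y) (n : ℕ) :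
    (vX E x n ≠ 0 ∨ vZ E x n ≠ 0) ∧
    (n • (Point.some x y h) = 0 ↔ vZ E x n = 0) ∧
    (∀ (x' y' : F) (h' : E.Nonsingular x' y'),
      n • (Point.some x y h) = Point.some x' y' h' → vX E x n = x' * vZ E x n) := by
  rw [← eval_pX, ← eval_pZ]
  refine ⟨?_, nsmul_eq_zero_iff_pZ E hΔ h n, fun x' y' h' hn => (pX_eq_mul_pZ E hΔ h n h' hn).1⟩
  have := pX_pZ_not_both_zero E hΔ h n
  tauto

end valid

end Fermat.Agent.Tors
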