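import Mathlib

/-!
# P-TORS: division-free "Montgomery ladder" division polynomials

For a Weierstrass curve with invariants `b₂ b₄ b₆ b₈` and a point `P` with `x`-coordinate `x`,
the ladder computes projective representatives `(X_n : Z_n)` of `x(nP)` using only
* the duplication formula `x(2Q) = N₁(x(Q)) / M₁(x(Q))`, and
* the differential addition formula
  `x(Q₁ + Q₂) + x(Q₁ - Q₂) = (2 t s + b₂ s + b₄ t + b₆) / (x₁ - x₂)²`, `s = x₁ x₂`, `t = x₁ + x₂`,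
  applied to `Q₁ = nP`, `Q₂ = (n+1)P`, `Q₂ - Q₁ = P`.

Everything is defined over an arbitrary commutative ring `A` (with `x : A`), so that the same
definition gives polynomials (`A = R[X]`, `x = X`) and values (`A = K`).
No division is ever performed, and the degrees come out exact (`deg X_n = n²`).
-/

set_option autoImplicit false

namespace Fermat.Agent.Tors

variable {A : Type*} [CommRing A]

/-- Numerator of the duplication formula, homogenised. -/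
def dblX (b₄ b₆ b₈ X Z : A) : A :=
  X ^ 4 - b₄ * X ^ 2 * Z ^ 2 - 2 * b₆ * X * Z ^ 3 - b₈ * Z ^ 4

/-- Denominator of the duplication formula, homogenised. -/
def dblZ (b₂ b₄ b₆ X Z : A) : A :=
  4 * X ^ 3 * Z + b₂ * X ^ 2 * Z ^ 2 + 2 * b₄ * X * Z ^ 3 + b₆ * Z ^ 4

/-- Denominator of the differential addition formula. -/
def dadZ (X₁ Z₁ X₂ Z₂ : A) : A :=
  (X₂ * Z₁ - X₁ * Z₂) ^ 2

/-- Numerator of the differential addition formula (the difference has `x`-coordinate `x`). -/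
def dadX (b₂ b₄ b₆ x X₁ Z₁ X₂ Z₂ : A) : A :=
  2 * (X₁ * Z₂ + X₂ * Z₁) * (X₁ * X₂) + b₂ * (X₁ * X₂) * (Z₁ * Z₂)
    + b₄ * (X₁ * Z₂ + X₂ * Z₁) * (Z₁ * Z₂) + b₆ * (Z₁ * Z₂) ^ 2
    - x * (X₂ * Z₁ - X₁ * Z₂) ^ 2

/-- A ladder state: representatives of `x(nP)` and `x((n+1)P)`. -/
structure LState (A : Type*) where
  /-- numerator for `nP` -/
  X : A
  /-- denominator for `nP` -/
  Z : A
  /-- numerator for `(n+1)P` -/
  X' : A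
  /-- denominator for `(n+1)P` -/
  Z' : A

/-- One ladder step: `n ↦ 2n` (`b = false`) or `n ↦ 2n+1` (`b = true`). -/
def lstep (b₂ b₄ b₆ b₈ x : A) (b : Bool) (s : LState A) : LState A :=
  if b then
    ⟨dadX b₂ b₄ b₆ x s.X s.Z s.X' s.Z', dadZ s.X s.Z s.X' s.Z',
      dblX b₄ b₆ b₈ s.X' s.Z', dblZ b₂ b₄ b₆ s.X' s.Z'⟩
  else
    ⟨dblX b₄ b₆ b₈ s.X s.Z, dblZ b₂ b₄ b₆ s.X s.Z,
      dadX b₂ b₄ b₆ x s.X s.Z s.X' s.Z', dadZ s.X s.Z s.X' s.Z'⟩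

/-- The ladder. -/
def ladder (b₂ b₄ b₆ b₈ x : A) (n : ℕ) : LState A :=
  Nat.binaryRec (motive := fun _ => LState A) ⟨1, 0, x, 1⟩
    (fun b _ s => lstep b₂ b₄ b₆ b₈ x b s) n

/-- Numerator `X_n`. -/
def lX (b₂ b₄ b₆ b₈ x : A) (n : ℕ) : A := (ladder b₂ b₄ b₆ b₈ x n).X

/-- Denominator `Z_n`. -/
def lZ (b₂ b₄ b₆ b₈ x : A) (n : ℕ) : A := (ladder b₂ b₄ b₆ b₈ x n).Z

section basic

variable (b₂ b₄ b₆ b₈ x : A)

@[simp] lemma ladder_zero : ladder b₂ b₄ b₆ b₈ x 0 = ⟨1, 0, x, 1⟩ := by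
  simp [ladder]

lemma lstep_false_init :
    lstep b₂ b₄ b₆ b₈ x false (⟨1, 0, x, 1⟩ : LState A) = ⟨1, 0, x, 1⟩ := by
  simp only [lstep, Bool.false_eq_true, if_false, dblX, dblZ, dadX, dadZ]
  congr 1 <;> ring

lemma ladder_bit (b : Bool) (n : ℕ) :
    ladder b₂ b₄ b₆ b₈ x (Nat.bit b n) = lstep b₂ b₄ b₆ b₈ x b (ladder b₂ b₄ b₆ b₈ x n) := by
  unfold ladder
  rw [Nat.binaryRec_eq]
  exact Or.inl (lstep_false_init b₂ b₄ b₆ b₈ x)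

lemma ladder_two_mul (n : ℕ) :
    ladder b₂ b₄ b₆ b₈ x (2 * n) = lstep b₂ b₄ b₆ b₈ x false (ladder b₂ b₄ b₆ b₈ x n) := by
  have := ladder_bit b₂ b₄ b₆ b₈ x false n
  simpa [Nat.bit] using this

lemma ladder_two_mul_add_one (n : ℕ) :
    ladder b₂ b₄ b₆ b₈ x (2 * n + 1) =
      lstep b₂ b₄ b₆ b₈ x true (ladder b₂ b₄ b₆ b₈ x n) := by
  have := ladder_bit b₂ b₄ b₆ b₈ x true n
  simpa [Nat.bit] using this

@[simp] lemma ladder_one :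
    ladder b₂ b₄ b₆ b₈ x 1 = ⟨x, 1, dblX b₄ b₆ b₈ x 1, dblZ b₂ b₄ b₆ x 1⟩ := by
  have := ladder_two_mul_add_one b₂ b₄ b₆ b₈ x 0
  simp only [Nat.mul_zero, Nat.zero_add, ladder_zero] at this
  rw [this]
  simp only [lstep, if_true, dadX, dadZ]
  congr 1 <;> ring

/-- The second half of the state at `n` is the first half of the state at `n + 1`. -/
lemma ladder_succ (n : ℕ) :
    (ladder b₂ b₄ b₆ b₈ x n).X' = (ladder b₂ b₄ b₆ b₈ x (n + 1)).X ∧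
    (ladder b₂ b₄ b₆ b₈ x n).Z' = (ladder b₂ b₄ b₆ b₈ x (n + 1)).Z := by
  induction n using Nat.strong_induction_on with
  | _ n ih =>
    rcases Nat.even_or_odd' n with ⟨m, rfl | rfl⟩
    · -- n = 2m, n + 1 = 2m + 1
      rw [ladder_two_mul, ladder_two_mul_add_one]
      simp [lstep]
    · -- n = 2m + 1, n + 1 = 2 (m + 1)
      have h2 : 2 * m + 1 + 1 = 2 * (m + 1) := by ring
      rw [h2, ladder_two_mul, ladder_two_mul_add_one]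
      have := ih m (by omega)
      simp only [lstep, Bool.false_eq_true, if_false, if_true]
      rw [this.1, this.2]
      exact ⟨rfl, rfl⟩

lemma ladder_X' (n : ℕ) : (ladder b₂ b₄ b₆ b₈ x n).X' = lX b₂ b₄ b₆ b₈ x (n + 1) :=
  (ladder_succ b₂ b₄ b₆ b₈ x n).1

lemma ladder_Z' (n : ℕ) : (ladder b₂ b₄ b₆ b₈ x n).Z' = lZ b₂ b₄ b₆ b₈ x (n + 1) :=
  (ladder_succ b₂ b₄ b₆ b₈ x n).2

@[simp] lemma lX_zero : lX b₂ b₄ b₆ b₈ x 0 = 1 := by simp [lX]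
@[simp] lemma lZ_zero : lZ b₂ b₄ b₆ b₈ x 0 = 0 := by simp [lZ]
@[simp] lemma lX_one : lX b₂ b₄ b₆ b₈ x 1 = x := by simp [lX]
@[simp] lemma lZ_one : lZ b₂ b₄ b₆ b₈ x 1 = 1 := by simp [lZ]

lemma lX_two_mul (n : ℕ) :
    lX b₂ b₄ b₆ b₈ x (2 * n) = dblX b₄ b₆ b₈ (lX b₂ b₄ b₆ b₈ x n) (lZ b₂ b₄ b₆ b₈ x n) := by
  simp [lX, lZ, ladder_two_mul, lstep]

lemma lZ_two_mul (n : ℕ) :
    lZ b₂ b₄ b₆ b₈ x (2 * n) = dblZ b₂ b₄ b₆ (lX b₂ b₄ b₆ b₈ x n) (lZ b₂ b₄ b₆ b₈ x n) := by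
  simp [lX, lZ, ladder_two_mul, lstep]

lemma lX_two_mul_add_one (n : ℕ) :
    lX b₂ b₄ b₆ b₈ x (2 * n + 1) =
      dadX b₂ b₄ b₆ x (lX b₂ b₄ b₆ b₈ x n) (lZ b₂ b₄ b₆ b₈ x n)
        (lX b₂ b₄ b₆ b₈ x (n + 1)) (lZ b₂ b₄ b₆ b₈ x (n + 1)) := by
  have h1 := (ladder_succ b₂ b₄ b₆ b₈ x n).1
  have h2 := (ladder_succ b₂ b₄ b₆ b₈ x n).2
  simp only [lX, lZ, ladder_two_mul_add_one, lstep, if_true]
  rw [h1, h2]

lemma lZ_two_mul_add_one (n : ℕ) :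
    lZ b₂ b₄ b₆ b₈ x (2 * n + 1) =
      dadZ (lX b₂ b₄ b₆ b₈ x n) (lZ b₂ b₄ b₆ b₈ x n)
        (lX b₂ b₄ b₆ b₈ x (n + 1)) (lZ b₂ b₄ b₆ b₈ x (n + 1)) := by
  have h1 := (ladder_succ b₂ b₄ b₆ b₈ x n).1
  have h2 := (ladder_succ b₂ b₄ b₆ b₈ x n).2
  simp only [lX, lZ, ladder_two_mul_add_one, lstep, if_true]
  rw [h1, h2]

end basic

section map

variable {B : Type*} [CommRing B] (f : A →+* B) (b₂ b₄ b₆ b₈ x : A)

lemma map_dblX (X Z : A) : f (dblX b₄ b₆ b₈ X Z) = dblX (f b₄) (f b₆) (f b₈) (f X) (f Z) := by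
  simp [dblX, map_ofNat]

lemma map_dblZ (X Z : A) : f (dblZ b₂ b₄ b₆ X Z) = dblZ (f b₂) (f b₄) (f b₆) (f X) (f Z) := by
  simp [dblZ, map_ofNat]

lemma map_dadZ (X₁ Z₁ X₂ Z₂ : A) : f (dadZ X₁ Z₁ X₂ Z₂) = dadZ (f X₁) (f Z₁) (f X₂) (f Z₂) := by
  simp [dadZ]

lemma map_dadX (X₁ Z₁ X₂ Z₂ : A) :
    f (dadX b₂ b₄ b₆ x X₁ Z₁ X₂ Z₂) =
      dadX (f b₂) (f b₄) (f b₆) (f x) (f X₁) (f Z₁) (f X₂) (f Z₂) := by
  simp [dadX, map_ofNat]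

/-- The ladder commutes with ring homomorphisms. -/
lemma map_lX_lZ (n : ℕ) :
    f (lX b₂ b₄ b₆ b₈ x n) = lX (f b₂) (f b₄) (f b₆) (f b₈) (f x) n ∧
    f (lZ b₂ b₄ b₆ b₈ x n) = lZ (f b₂) (f b₄) (f b₆) (f b₈) (f x) n := by
  induction n using Nat.strong_induction_on with
  | _ n ih =>
    rcases Nat.even_or_odd' n with ⟨m, rfl | rfl⟩
    · rcases Nat.eq_zero_or_pos m with rfl | hm
      · simp
      · have h := ih m (by omega)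
        rw [lX_two_mul, lZ_two_mul, lX_two_mul, lZ_two_mul, map_dblX, map_dblZ, h.1, h.2]
        exact ⟨rfl, rfl⟩
    · have h := ih m (by omega)
      rcases Nat.eq_zero_or_pos m with rfl | hm
      · simp
      · have h' := ih (m + 1) (by omega)
        rw [lX_two_mul_add_one, lZ_two_mul_add_one, lX_two_mul_add_one, lZ_two_mul_add_one,
          map_dadX, map_dadZ, h.1, h.2, h'.1, h'.2]
        exact ⟨rfl, rfl⟩

lemma map_lX (n : ℕ) :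
    f (lX b₂ b₄ b₆ b₈ x n) = lX (f b₂) (f b₄) (f b₆) (f b₈) (f x) n :=
  (map_lX_lZ f b₂ b₄ b₆ b₈ x n).1

lemma map_lZ (n : ℕ) :
    f (lZ b₂ b₄ b₆ b₈ x n) = lZ (f b₂) (f b₄) (f b₆) (f b₈) (f x) n :=
  (map_lX_lZ f b₂ b₄ b₆ b₈ x n).2

end map

end Fermat.Agent.Tors
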