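import Fermat.Agent.Tors.Poly

/-!
# P-TORS (T1): exact degrees and top coefficients of the ladder polynomials, over any ring

`pX W n` has degree `≤ n²` with coefficient `1` in degree `n²`;
`pZ W n` has degree `≤ n² - 1` with coefficient `n²` in degree `n² - 1`.
-/

set_option autoImplicit false

namespace Fermat.Agent.Tors

open Polynomial

section Top

variable {R : Type*} [CommRing R]

/-- `p` has degree at most `d` and its coefficient in degree `d` is `c`. -/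
def HasTop (p : R[X]) (d : ℕ) (c : R) : Prop := p.natDegree ≤ d ∧ p.coeff d = c

variable {p q : R[X]} {d e : ℕ} {c c' : R}

lemma HasTop.mul (hp : HasTop p d c) (hq : HasTop q e c') : HasTop (p * q) (d + e) (c * c') :=
  ⟨natDegree_mul_le_of_le hp.1 hq.1, by
    rw [coeff_mul_add_eq_of_natDegree_le hp.1 hq.1, hp.2, hq.2]⟩

lemma HasTop.one : HasTop (1 : R[X]) 0 1 := ⟨by simp, by simp⟩

lemma HasTop.zero (d : ℕ) : HasTop (0 : R[X]) d 0 := ⟨by simp, by simp⟩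

lemma HasTop.pow (hp : HasTop p d c) (k : ℕ) : HasTop (p ^ k) (k * d) (c ^ k) := by
  induction k with
  | zero => simpa using (HasTop.one : HasTop (1 : R[X]) 0 1)
  | succ k ih =>
    have := ih.mul hp
    rwa [← pow_succ, ← pow_succ, ← Nat.succ_mul] at this

lemma HasTop.add (hp : HasTop p d c) (hq : HasTop q d c') : HasTop (p + q) d (c + c') :=
  ⟨natDegree_add_le_of_degree_le hp.1 hq.1, by rw [coeff_add, hp.2, hq.2]⟩

lemma HasTop.neg (hp : HasTop p d c) : HasTop (-p) d (-c) :=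
  ⟨by rw [natDegree_neg]; exact hp.1, by rw [coeff_neg, hp.2]⟩

lemma HasTop.sub (hp : HasTop p d c) (hq : HasTop q d c') : HasTop (p - q) d (c - c') := by
  rw [sub_eq_add_neg, sub_eq_add_neg]
  exact hp.add hq.neg

lemma HasTop.C (a : R) : HasTop (Polynomial.C a) 0 a := ⟨by simp, by simp⟩

lemma HasTop.X : HasTop (Polynomial.X : R[X]) 1 1 := ⟨natDegree_X_le, by simp⟩

lemma HasTop.C_mul (a : R) (hp : HasTop p d c) : HasTop (Polynomial.C a * p) d (a * c) := by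
  have := (HasTop.C a).mul hp
  rwa [zero_add] at this

lemma HasTop.natCast_mul (k : ℕ) (hp : HasTop p d c) :
    HasTop ((k : R[X]) * p) d ((k : R) * c) := by
  have := hp.C_mul (k : R)
  rwa [← Polynomial.C_eq_natCast] 

lemma HasTop.two_mul (hp : HasTop p d c) : HasTop (2 * p) d (2 * c) := by
  have := hp.natCast_mul 2
  simpa using this

lemma HasTop.four_mul (hp : HasTop p d c) : HasTop (4 * p) d (4 * c) := by
  have := hp.natCast_mul 4
  simpa using this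

lemma HasTop.lift (hp : HasTop p d c) (h : d < e) : HasTop p e 0 :=
  ⟨hp.1.trans h.le, coeff_eq_zero_of_natDegree_lt (lt_of_le_of_lt hp.1 h)⟩

lemma HasTop.cast (hp : HasTop p d c) (h : d = e) (h' : c = c') : HasTop p e c' := by
  subst h; subst h'; exact hp

lemma HasTop.ne_zero (hp : HasTop p d c) (hc : c ≠ 0) : p ≠ 0 := by
  rintro rfl
  exact hc (by simpa using hp.2.symm)

lemma HasTop.natDegree_eq (hp : HasTop p d c) (hc : c ≠ 0) : p.natDegree = d :=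
  le_antisymm hp.1 (le_natDegree_of_ne_zero (by rw [hp.2]; exact hc))

lemma HasTop.leadingCoeff_eq (hp : HasTop p d c) (hc : c ≠ 0) : p.leadingCoeff = c := by
  rw [leadingCoeff, hp.natDegree_eq hc, hp.2]

lemma HasTop.monic [Nontrivial R] (hp : HasTop p d 1) : p.Monic :=
  hp.leadingCoeff_eq one_ne_zero

end Top

section Ladder

variable {R : Type*} [CommRing R]

lemma dblX_top (b₄ b₆ b₈ : R) {P Z : R[X]} {d : ℕ} {c : R}
    (hP : HasTop P (d + 1) 1) (hZ : HasTop Z d c) :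
    HasTop (dblX (C b₄) (C b₆) (C b₈) P Z) (4 * d + 4) 1 := by
  unfold dblX
  have t1 : HasTop (P ^ 4) (4 * d + 4) 1 := (hP.pow 4).cast (by ring) (by ring)
  have t2 : HasTop (C b₄ * P ^ 2 * Z ^ 2) (4 * d + 4) 0 := by
    have := ((hP.pow 2).C_mul b₄).mul (hZ.pow 2)
    exact this.lift (by omega)
  have t3 : HasTop (2 * C b₆ * P * Z ^ 3) (4 * d + 4) 0 := by
    have := (((hP.C_mul b₆).two_mul).mul (hZ.pow 3))
    rw [← mul_assoc] at this
    exact this.lift (by omega)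
  have t4 : HasTop (C b₈ * Z ^ 4) (4 * d + 4) 0 := by
    have := (hZ.pow 4).C_mul b₈
    exact this.lift (by omega)
  exact (((t1.sub t2).sub t3).sub t4).cast rfl (by ring)

lemma dblZ_top (b₂ b₄ b₆ : R) {P Z : R[X]} {d : ℕ} {c : R}
    (hP : HasTop P (d + 1) 1) (hZ : HasTop Z d c) :
    HasTop (dblZ (C b₂) (C b₄) (C b₆) P Z) (4 * d + 3) (4 * c) := by
  unfold dblZ
  have t1 : HasTop (4 * P ^ 3 * Z) (4 * d + 3) (4 * c) := by
    have := ((hP.pow 3).four_mul).mul hZ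
    exact this.cast (by ring) (by ring)
  have t2 : HasTop (C b₂ * P ^ 2 * Z ^ 2) (4 * d + 3) 0 := by
    have := ((hP.pow 2).C_mul b₂).mul (hZ.pow 2)
    exact this.lift (by omega)
  have t3 : HasTop (2 * C b₄ * P * Z ^ 3) (4 * d + 3) 0 := by
    have := (((hP.C_mul b₄).two_mul).mul (hZ.pow 3))
    rw [← mul_assoc] at this
    exact this.lift (by omega)
  have t4 : HasTop (C b₆ * Z ^ 4) (4 * d + 3) 0 := by
    have := (hZ.pow 4).C_mul b₆
    exact this.lift (by omega)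
  exact (((t1.add t2).add t3).add t4).cast rfl (by ring)

lemma dadH_top {P₁ Z₁ P₂ Z₂ : R[X]} {d e : ℕ} {c c' : R}
    (hP₁ : HasTop P₁ (d + 1) 1) (hZ₁ : HasTop Z₁ d c)
    (hP₂ : HasTop P₂ (e + 1) 1) (hZ₂ : HasTop Z₂ e c') :
    HasTop (P₂ * Z₁ - P₁ * Z₂) (d + e + 1) (c - c') := by
  have t1 : HasTop (P₂ * Z₁) (d + e + 1) c := (hP₂.mul hZ₁).cast (by ring) (by ring)
  have t2 : HasTop (P₁ * Z₂) (d + e + 1) c' := (hP₁.mul hZ₂).cast (by ring) (by ring)
  exact t1.sub t2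

lemma dadZ_top {P₁ Z₁ P₂ Z₂ : R[X]} {d e : ℕ} {c c' : R}
    (hP₁ : HasTop P₁ (d + 1) 1) (hZ₁ : HasTop Z₁ d c)
    (hP₂ : HasTop P₂ (e + 1) 1) (hZ₂ : HasTop Z₂ e c') :
    HasTop (dadZ P₁ Z₁ P₂ Z₂) (2 * d + 2 * e + 2) ((c - c') ^ 2) := by
  unfold dadZ
  exact ((dadH_top hP₁ hZ₁ hP₂ hZ₂).pow 2).cast (by ring) rfl

lemma dadX_top (b₂ b₄ b₆ : R) {P₁ Z₁ P₂ Z₂ : R[X]} {d e : ℕ} {c c' : R}
    (hP₁ : HasTop P₁ (d + 1) 1) (hZ₁ : HasTop Z₁ d c)
    (hP₂ : HasTop P₂ (e + 1) 1) (hZ₂ : HasTop Z₂ e c') :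
    HasTop (dadX (C b₂) (C b₄) (C b₆) X P₁ Z₁ P₂ Z₂) (2 * d + 2 * e + 3)
      (2 * (c + c') - (c - c') ^ 2) := by
  unfold dadX
  have s : HasTop (P₁ * Z₂ + P₂ * Z₁) (d + e + 1) (c' + c) := by
    have t1 : HasTop (P₂ * Z₁) (d + e + 1) c := (hP₂.mul hZ₁).cast (by ring) (by ring)
    have t2 : HasTop (P₁ * Z₂) (d + e + 1) c' := (hP₁.mul hZ₂).cast (by ring) (by ring)
    exact t2.add t1
  have pp : HasTop (P₁ * P₂) (d + e + 2) 1 := (hP₁.mul hP₂).cast (by ring) (by ring)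
  have zz : HasTop (Z₁ * Z₂) (d + e) (c * c') := hZ₁.mul hZ₂
  have t1 : HasTop (2 * (P₁ * Z₂ + P₂ * Z₁) * (P₁ * P₂)) (2 * d + 2 * e + 3) (2 * (c + c')) :=
    (s.two_mul.mul pp).cast (by ring) (by ring)
  have t2 : HasTop (C b₂ * (P₁ * P₂) * (Z₁ * Z₂)) (2 * d + 2 * e + 3) 0 :=
    ((pp.C_mul b₂).mul zz).lift (by omega)
  have t3 : HasTop (C b₄ * (P₁ * Z₂ + P₂ * Z₁) * (Z₁ * Z₂)) (2 * d + 2 * e + 3) 0 :=
    ((s.C_mul b₄).mul zz).lift (by omega)
  have t4 : HasTop (C b₆ * (Z₁ * Z₂) ^ 2) (2 * d + 2 * e + 3) 0 :=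
    ((zz.pow 2).C_mul b₆).lift (by omega)
  have t5 : HasTop (X * (P₂ * Z₁ - P₁ * Z₂) ^ 2) (2 * d + 2 * e + 3) ((c - c') ^ 2) :=
    (HasTop.X.mul ((dadH_top hP₁ hZ₁ hP₂ hZ₂).pow 2)).cast (by ring) (by ring)
  exact ((((t1.add t2).add t3).add t4).sub t5).cast rfl (by ring)

variable (W : WeierstrassCurve R)

/-- **(T1)** top-degree data of the ladder polynomials, for `n ≥ 1`. -/
theorem ladder_top (n : ℕ) (hn : 1 ≤ n) :
    ∃ d : ℕ, d + 1 = n ^ 2 ∧ HasTop (pX W n) (d + 1) 1 ∧ HasTop (pZ W n) d ((n : R) ^ 2) := by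
  induction n using Nat.strong_induction_on with
  | _ n ih =>
    rcases Nat.even_or_odd' n with ⟨m, rfl | rfl⟩
    · have hm : 1 ≤ m := by omega
      obtain ⟨d, hd, h1, h2⟩ := ih m (by omega) hm
      rw [pX_two_mul, pZ_two_mul]
      refine ⟨4 * d + 3, by nlinarith, dblX_top _ _ _ h1 h2,
        (dblZ_top _ _ _ h1 h2).cast rfl (by push_cast; ring)⟩
    · rcases Nat.eq_zero_or_pos m with rfl | hm
      · refine ⟨0, by norm_num, ?_, ?_⟩
        · simpa using (HasTop.X : HasTop (Polynomial.X : R[X]) 1 1)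
        · simpa using (HasTop.one : HasTop (1 : R[X]) 0 1)
      · obtain ⟨d, hd, h1, h2⟩ := ih m (by omega) hm
        obtain ⟨e, he, h3, h4⟩ := ih (m + 1) (by omega) (by omega)
        rw [pX_two_mul_add_one, pZ_two_mul_add_one]
        refine ⟨2 * d + 2 * e + 2, by nlinarith,
          (dadX_top _ _ _ h1 h2 h3 h4).cast rfl (by push_cast; ring),
          (dadZ_top h1 h2 h3 h4).cast rfl (by push_cast; ring)⟩

theorem pX_natDegree_le (n : ℕ) : (pX W n).natDegree ≤ n ^ 2 := by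
  rcases Nat.eq_zero_or_pos n with rfl | hn
  · simp
  · obtain ⟨d, hd, h1, -⟩ := ladder_top W n hn
    rw [← hd]; exact h1.1

theorem pX_coeff_top (n : ℕ) : (pX W n).coeff (n ^ 2) = 1 := by
  rcases Nat.eq_zero_or_pos n with rfl | hn
  · simp
  · obtain ⟨d, hd, h1, -⟩ := ladder_top W n hn
    rw [← hd]; exact h1.2

theorem pZ_natDegree_le (n : ℕ) : (pZ W n).natDegree ≤ n ^ 2 - 1 := by
  rcases Nat.eq_zero_or_pos n with rfl | hn
  · simp
  · obtain ⟨d, hd, -, h2⟩ := ladder_top W n hn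
    have : n ^ 2 - 1 = d := by omega
    rw [this]; exact h2.1

theorem pZ_coeff_top (n : ℕ) : (pZ W n).coeff (n ^ 2 - 1) = (n : R) ^ 2 := by
  rcases Nat.eq_zero_or_pos n with rfl | hn
  · simp
  · obtain ⟨d, hd, -, h2⟩ := ladder_top W n hn
    have : n ^ 2 - 1 = d := by omega
    rw [this]; exact h2.2

theorem ifaceDegree : IfaceDegree := fun _ _ W n =>
  ⟨pX_natDegree_le W n, pX_coeff_top W n, pZ_natDegree_le W n, pZ_coeff_top W n⟩

theorem pX_monic [Nontrivial R] (n : ℕ) : (pX W n).Monic := by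
  have h : HasTop (pX W n) (n ^ 2) 1 := ⟨pX_natDegree_le W n, pX_coeff_top W n⟩
  exact h.monic

theorem pX_natDegree [Nontrivial R] (n : ℕ) : (pX W n).natDegree = n ^ 2 := by
  have h : HasTop (pX W n) (n ^ 2) 1 := ⟨pX_natDegree_le W n, pX_coeff_top W n⟩
  exact h.natDegree_eq one_ne_zero

theorem pZ_natDegree (n : ℕ) (hn : ((n : R) ^ 2) ≠ 0) : (pZ W n).natDegree = n ^ 2 - 1 := by
  have h : HasTop (pZ W n) (n ^ 2 - 1) ((n : R) ^ 2) := ⟨pZ_natDegree_le W n, pZ_coeff_top W n⟩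
  exact h.natDegree_eq hn

theorem pZ_leadingCoeff (n : ℕ) (hn : ((n : R) ^ 2) ≠ 0) :
    (pZ W n).leadingCoeff = (n : R) ^ 2 := by
  have h : HasTop (pZ W n) (n ^ 2 - 1) ((n : R) ^ 2) := ⟨pZ_natDegree_le W n, pZ_coeff_top W n⟩
  exact h.leadingCoeff_eq hn

end Ladder

end Fermat.Agent.Tors
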