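import Mathlib

/-!
# P-TORS (T3a): generic separable-fibre lemma

Let `K` be an algebraically closed field and `X, Z : K[X]` polynomials without common root,
`X` of degree `d ≥ 1` with leading coefficient `1`, `Z` of degree `< d`, such that the
Wronskian `X' Z - X Z'` is not the zero polynomial.  Then for all but finitely many `c : K` the
polynomial `X - c Z` is separable, and then it has exactly `d` roots in `K`.

(The hypothesis that `X` and `Z` have no common root cannot be dropped: for `X = x³`, `Z = x²`
the Wronskian is `x⁴ ≠ 0` but `X - c Z = x² (x - c)` is never separable.)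
-/

set_option autoImplicit false

namespace Fermat.Agent.Tors

open Polynomial

variable {K : Type*} [Field K]

/-- the fibre polynomial `X - c Z` is monic of degree `d` -/
lemma fibre_natDegree (X Z : K[X]) (d : ℕ) (hd : 1 ≤ d) (hX : X.natDegree ≤ d)
    (hXd : X.coeff d = 1) (hZ : Z.natDegree ≤ d - 1) (c : K) :
    (X - C c * Z).natDegree = d ∧ (X - C c * Z).Monic := by
  have hZd : (C c * Z).natDegree < d := by
    have h1 : (C c * Z).natDegree ≤ Z.natDegree := natDegree_C_mul_le c Z
    omega
  have hcoeff : (X - C c * Z).coeff d = 1 := by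
    rw [coeff_sub, hXd, coeff_eq_zero_of_natDegree_lt hZd, sub_zero]
  have hle : (X - C c * Z).natDegree ≤ d :=
    (natDegree_sub_le _ _).trans (max_le hX hZd.le)
  have hne : (X - C c * Z).coeff d ≠ 0 := by rw [hcoeff]; exact one_ne_zero
  have hdeg : (X - C c * Z).natDegree = d :=
    le_antisymm hle (le_natDegree_of_ne_zero hne)
  refine ⟨hdeg, ?_⟩
  rw [Monic, leadingCoeff, hdeg, hcoeff]

variable [IsAlgClosed K]

/-- a non-separable fibre polynomial has a root which is a root of the Wronskian -/
lemma exists_root_of_not_separable (X Z : K[X]) (c : K) (h : ¬ (X - C c * Z).Separable) :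
    ∃ r : K, (X - C c * Z).eval r = 0 ∧ (derivative X * Z - X * derivative Z).eval r = 0 := by
  rw [separable_def, Polynomial.isCoprime_iff_aeval_ne_zero_of_isAlgClosed (k := K) K] at h
  push Not at h
  obtain ⟨r, h1, h2⟩ := h
  simp only [coe_aeval_eq_eval] at h1 h2
  refine ⟨r, h1, ?_⟩
  have h3 : X.eval r = c * Z.eval r := by
    have := h1
    simp only [eval_sub, eval_mul, eval_C] at this
    linear_combination this
  have h4 : (derivative X).eval r = c * (derivative Z).eval r := by
    have := h2
    simp only [derivative_sub, derivative_mul, derivative_C, zero_mul, zero_add, eval_sub,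
      eval_mul, eval_C] at this
    linear_combination this
  simp only [eval_sub, eval_mul, h3, h4]
  ring

/-- **(T3a), finiteness.** All but finitely many fibre polynomials `X - c Z` are separable. -/
theorem finite_not_separable_fibre (X Z : K[X])
    (hcop : ∀ r : K, X.eval r = 0 → Z.eval r ≠ 0)
    (hW : derivative X * Z - X * derivative Z ≠ 0) :
    {c : K | ¬ (X - C c * Z).Separable}.Finite := by
  classical
  set Wr : K[X] := derivative X * Z - X * derivative Z with hWr
  have hfin : ((fun r : K => X.eval r / Z.eval r) '' (Wr.rootSet K)).Finite :=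
    (Wr.rootSet_finite K).image _
  refine hfin.subset ?_
  intro c hc
  obtain ⟨r, h1, h2⟩ := exists_root_of_not_separable X Z c hc
  have h3 : X.eval r = c * Z.eval r := by
    simp only [eval_sub, eval_mul, eval_C] at h1
    linear_combination h1
  have hZr : Z.eval r ≠ 0 := by
    intro hZ0
    have hX0 : X.eval r = 0 := by rw [h3, hZ0, mul_zero]
    exact hcop r hX0 hZ0
  refine ⟨r, ?_, ?_⟩
  · rw [mem_rootSet]
    refine ⟨hW, ?_⟩
    rw [coe_aeval_eq_eval]
    exact h2
  · show X.eval r / Z.eval r = c
    rw [h3, mul_div_assoc, div_self hZr, mul_one]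

/-- **(T3a), count.** A separable fibre polynomial has exactly `d` roots. -/
theorem card_rootSet_fibre (X Z : K[X]) (d : ℕ) (hd : 1 ≤ d) (hX : X.natDegree ≤ d)
    (hXd : X.coeff d = 1) (hZ : Z.natDegree ≤ d - 1) (c : K)
    (hc : (X - C c * Z).Separable) :
    Nat.card ((X - C c * Z).rootSet K) = d := by
  classical
  rw [Nat.card_eq_fintype_card,
    card_rootSet_eq_natDegree hc (IsAlgClosed.splits _), (fibre_natDegree X Z d hd hX hXd hZ c).1]

/-- **(T3a), count, in terms of `eval`.** -/
theorem card_roots_fibre (X Z : K[X]) (d : ℕ) (hd : 1 ≤ d) (hX : X.natDegree ≤ d)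
    (hXd : X.coeff d = 1) (hZ : Z.natDegree ≤ d - 1) (c : K)
    (hc : (X - C c * Z).Separable) :
    Nat.card {r : K // X.eval r = c * Z.eval r} = d := by
  classical
  rw [← card_rootSet_fibre X Z d hd hX hXd hZ c hc]
  have hne : X - C c * Z ≠ 0 := (fibre_natDegree X Z d hd hX hXd hZ c).2.ne_zero
  refine Nat.card_congr (Equiv.subtypeEquivRight fun r => ?_)
  rw [mem_rootSet]
  simp only [coe_aeval_eq_eval, eval_sub, eval_mul, eval_C, sub_eq_zero]
  exact ⟨fun h => ⟨hne, h⟩, fun h => h.2⟩

/-- **(T3a), existence of a good parameter**, avoiding in addition any given finite set: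
if `K` is infinite (automatic for algebraically closed fields) there is `c` outside a given
finite set such that `X - c Z` is separable. -/
theorem exists_separable_fibre (X Z : K[X])
    (hcop : ∀ r : K, X.eval r = 0 → Z.eval r ≠ 0)
    (hW : derivative X * Z - X * derivative Z ≠ 0) (S : Set K) (hS : S.Finite) :
    ∃ c : K, c ∉ S ∧ (X - C c * Z).Separable := by
  have : Infinite K := IsAlgClosed.instInfinite
  have hfin := (finite_not_separable_fibre X Z hcop hW).union hS
  obtain ⟨c, hc⟩ := hfin.infinite_compl.nonempty
  rw [Set.mem_compl_iff, Set.mem_union, not_or] at hc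
  exact ⟨c, hc.2, not_not.mp hc.1⟩

end Fermat.Agent.Tors
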