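import Fermat.Agent.Tors.Bridge

/-!
# P-TORS: the odd division polynomial `pH W m = ± ψ_{2m+1}` and integrality

`pH W m := X_{m+1} Z_m - X_m Z_{m+1} ∈ R[X]` satisfies `Z_{2m+1} = (pH W m)²`, has degree
`≤ 2m² + 2m = ((2m+1)² - 1)/2` with top coefficient `-(2m+1)`, commutes with base change
(`Polynomial.map`), and for a nonzero point `P = (x, y)` of an elliptic curve over a field:
`(2m+1) • P = 0 ↔ (pH W m).eval x = 0`.
-/

set_option autoImplicit false

namespace Fermat.Agent.Tors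

open Polynomial WeierstrassCurve WeierstrassCurve.Affine
open Fermat.Agent.S13 Fermat.Agent.S51

section ring

variable {R : Type*} [CommRing R] (W : WeierstrassCurve R)

/-- The odd division polynomial (up to sign): `ψ_{2m+1} = ± (X_{m+1} Z_m - X_m Z_{m+1})`. -/
noncomputable def pH (m : ℕ) : R[X] := pX W (m + 1) * pZ W m - pX W m * pZ W (m + 1)

theorem pZ_odd (m : ℕ) : pZ W (2 * m + 1) = (pH W m) ^ 2 := by
  rw [pZ_two_mul_add_one, dadZ, pH]

@[simp] theorem pH_zero : pH W 0 = -1 := by simp [pH]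

theorem pH_top (m : ℕ) : HasTop (pH W m) (2 * m ^ 2 + 2 * m) (-(2 * (m : R) + 1)) := by
  rcases Nat.eq_zero_or_pos m with rfl | hm
  · simpa using (HasTop.one : HasTop (1 : R[X]) 0 1).neg
  · obtain ⟨d, hd, h1, h2⟩ := ladder_top W m hm
    obtain ⟨e, he, h3, h4⟩ := ladder_top W (m + 1) (by omega)
    have := dadH_top h1 h2 h3 h4
    unfold pH
    exact this.cast (by nlinarith) (by push_cast; ring)

theorem pH_natDegree_le (m : ℕ) : (pH W m).natDegree ≤ 2 * m ^ 2 + 2 * m := (pH_top W m).1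

theorem pH_coeff_top (m : ℕ) : (pH W m).coeff (2 * m ^ 2 + 2 * m) = -(2 * (m : R) + 1) :=
  (pH_top W m).2

theorem pH_ne_zero (m : ℕ) (h : (2 * (m : R) + 1) ≠ 0) : pH W m ≠ 0 :=
  (pH_top W m).ne_zero (neg_ne_zero.mpr h)

theorem pH_natDegree (m : ℕ) (h : (2 * (m : R) + 1) ≠ 0) :
    (pH W m).natDegree = 2 * m ^ 2 + 2 * m :=
  (pH_top W m).natDegree_eq (neg_ne_zero.mpr h)

theorem pH_leadingCoeff (m : ℕ) (h : (2 * (m : R) + 1) ≠ 0) :
    (pH W m).leadingCoeff = -(2 * (m : R) + 1) :=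
  (pH_top W m).leadingCoeff_eq (neg_ne_zero.mpr h)

section map

variable {S : Type*} [CommRing S] (φ : R →+* S)

/-- Base change: the ladder polynomials of `W.map φ` are the images of those of `W`. -/
theorem pX_map (n : ℕ) : (pX W n).map φ = pX (W.map φ) n := by
  have := map_lX (mapRingHom φ) (C W.b₂) (C W.b₄) (C W.b₆) (C W.b₈) (X : R[X]) n
  simpa [pX] using this

theorem pZ_map (n : ℕ) : (pZ W n).map φ = pZ (W.map φ) n := by
  have := map_lZ (mapRingHom φ) (C W.b₂) (C W.b₄) (C W.b₆) (C W.b₈) (X : R[X]) n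
  simpa [pZ] using this

theorem pH_map (m : ℕ) : (pH W m).map φ = pH (W.map φ) m := by
  simp only [pH, Polynomial.map_sub, Polynomial.map_mul, pX_map, pZ_map]

end map

end ring

section field

variable {F : Type*} [Field F] [DecidableEq F] (E : Affine F)

/-- For a nonzero point `P = (x, y)`: `(2m+1) • P = 0 ↔ pH(x) = 0`. -/
theorem pH_eval_eq_zero_iff (hΔ : E.Δ ≠ 0) {x y : F} (h : E.Nonsingular x y) (m : ℕ) :
    (2 * m + 1) • (Point.some x y h) = 0 ↔ (pH E m).eval x = 0 := by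
  rw [nsmul_eq_zero_iff_pZ E hΔ h, pZ_odd, eval_pow]
  exact pow_eq_zero_iff (by norm_num)

/-- `#E[2m+1] ≤ (2m+1)²` when `2m+1` is invertible in `F`. -/
theorem card_torsion_odd_le (hΔ : E.Δ ≠ 0) (m : ℕ) (hm : (2 * (m : F) + 1) ≠ 0) :
    Finite (Submodule.torsionBy ℤ E.Point ((2 * m + 1 : ℕ) : ℤ)) ∧
      Nat.card (Submodule.torsionBy ℤ E.Point ((2 * m + 1 : ℕ) : ℤ)) ≤ (2 * m + 1) ^ 2 := by
  have hne := pH_ne_zero E m hm
  have hdeg := pH_natDegree_le E m
  have h := A_card_torsion_le E (2 * m + 1) (pH E m).roots.toFinset (fun P hP hnP => by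
    rw [Multiset.mem_toFinset, mem_roots hne, IsRoot.def]
    rw [natCast_zsmul] at hnP
    cases P with
    | zero => exact absurd rfl hP
    | some x y h =>
      rw [A_x_some]
      exact (pH_eval_eq_zero_iff E hΔ h m).mp hnP)
  refine ⟨h.1, ?_⟩
  have hc : (pH E m).roots.toFinset.card ≤ (pH E m).natDegree :=
    le_trans (Multiset.toFinset_card_le _) (card_roots' _)
  have h2 := h.2
  have : (2 * m + 1) ^ 2 = 1 + 2 * (2 * m ^ 2 + 2 * m) := by ring
  omega

end field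

section Qbar

variable (W : WeierstrassCurve ℚ)

/-- For an elliptic curve over `ℚ` and an odd number `p = 2m+1`: `1 < #E[p](ℚ̄) ≤ p²`. -/
theorem card_torsion_Qbar_odd (hΔ : W.Δ ≠ 0) (m : ℕ) (hm : 1 ≤ m) :
    Finite (Submodule.torsionBy ℤ (W⁄(AlgebraicClosure ℚ)).Point ((2 * m + 1 : ℕ) : ℤ)) ∧
      1 < Nat.card (Submodule.torsionBy ℤ (W⁄(AlgebraicClosure ℚ)).Point ((2 * m + 1 : ℕ) : ℤ)) ∧
      Nat.card (Submodule.torsionBy ℤ (W⁄(AlgebraicClosure ℚ)).Point ((2 * m + 1 : ℕ) : ℤ))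
        ≤ (2 * m + 1) ^ 2 := by
  have hΔ' : (W⁄(AlgebraicClosure ℚ)).Δ ≠ 0 := A_baseChange_Δ_ne_zero W hΔ
  have hm' : (2 * (m : AlgebraicClosure ℚ) + 1) ≠ 0 := by
    have : ((2 * m + 1 : ℕ) : AlgebraicClosure ℚ) ≠ 0 := Nat.cast_ne_zero.mpr (by omega)
    simpa using this
  obtain ⟨hfin, hle⟩ := card_torsion_odd_le (W⁄(AlgebraicClosure ℚ)) hΔ' m hm'
  refine ⟨hfin, ?_, hle⟩
  haveI := hfin
  haveI := T_nontrivial_torsion W hΔ (2 * m + 1) (by omega)
  exact Finite.one_lt_card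

end Qbar

end Fermat.Agent.Tors
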